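import Fermat.Statements.S25

/-!
# S25, DICTDEG plumbing: normal form of the Prelude's `IsAlgEquivZero` on a geometric fibre

For `c : C ⟶ Spec k`, `t : T ⟶ Spec k`, a module `L` on `pullback c t`, a field `K` and a point
`s : Spec K ⟶ T`, the Prelude tests `IsAlgEquivZero (fibreAt c t s) (L|_F)` on the nested fibre
product `F = pullback (pullback.snd c t) s`, with a family living on
`pullback (fibreAt c t s) h` for `h : T' ⟶ Spec K`.

`AlgEquivZeroNF c t L s` is the same statement with all nested pullbacks removed: the family `N`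
lives on `pullback c (h ≫ s ≫ t)` (= `C ×ₖ T'`), and its fibres at the two `K`-points `t₀, t₁` of
`T'` are taken with `baseChangeSnd c`, on `pullback c (s ≫ t)` (= `C_K`).

* `isAlgEquivZero_fibre_iff_nf` : the two are equivalent;
* `fibrewiseAlgEquivZero_iff_nf` : `FibrewiseAlgEquivZero M ↔ ∀ K s, AlgEquivZeroNF c t M.L s`.
-/

set_option autoImplicit false

universe u

open CategoryTheory CategoryTheory.Limits AlgebraicGeometry AlgebraicGeometry.RelPicard
  NeronModelInfra

namespace Fermat.Agent.S25.H385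

noncomputable section

variable {R : Type u} [CommRing R] {C T : Scheme.{u}} (c : C ⟶ Spec (CommRingCat.of R))
  (t : T ⟶ Spec (CommRingCat.of R))

/-- A point `s : S ⟶ T`, as a morphism over the base from `s ≫ t` to `t`. -/
abbrev pointOver {S : Scheme.{u}} (s : S ⟶ T) : SchemeHomOver (s ≫ t) t := ⟨s, rfl⟩

/-- A section `tᵢ` of `h : T' ⟶ S`, as a morphism over the base from `s ≫ t` to `h ≫ s ≫ t`. -/
abbrev sectionOver {S T' : Scheme.{u}} (s : S ⟶ T) (h : T' ⟶ S)
    (tᵢ : SchemeHomOver (𝟙 S) h) : SchemeHomOver (s ≫ t) (h ≫ s ≫ t) :=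
  ⟨tᵢ.1, by rw [← Category.assoc, tᵢ.2, Category.id_comp]⟩

variable {K : Type u} [Field K] (s : Spec (CommRingCat.of K) ⟶ T)

/-- Normal form of `IsAlgEquivZero` for the restriction of `L` to the fibre over `s`: there is
a connected family `N` of line bundles on `C ×ₖ T'` joining the trivial bundle to the
restriction of `L` to `C_K = pullback c (s ≫ t)`. -/
def AlgEquivZeroNF (L : (pullback c t).Modules) : Prop :=
  ∃ (T' : Scheme.{u}) (h : T' ⟶ Spec (CommRingCat.of K)) (_ : LocallyOfFiniteType h)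
    (_ : GeometricallyIntegral h) (N : (pullback c (h ≫ s ≫ t)).Modules)
    (_ : Scheme.Modules.IsInvertible N) (t₀ t₁ : SchemeHomOver (𝟙 (Spec (CommRingCat.of K))) h),
    Nonempty ((Scheme.Modules.pullback (baseChangeSnd c (sectionOver t s h t₀))).obj N ≅
        SheafOfModules.unit (pullback c (s ≫ t)).ringCatSheaf) ∧
    Nonempty ((Scheme.Modules.pullback (baseChangeSnd c (sectionOver t s h t₁))).obj N ≅
        (Scheme.Modules.pullback (baseChangeSnd c (pointOver t s))).obj L)

section Maps

variable {T' : Scheme.{u}} (h : T' ⟶ Spec (CommRingCat.of K))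

/-- `C_K ⟶ F`. -/
def nfToFibre : pullback c (s ≫ t) ⟶ pullback (pullback.snd c t) s :=
  pullback.lift (baseChangeSnd c (pointOver t s)) (pullback.snd c (s ≫ t))
    (by simp only [baseChangeSnd, pullback.lift_snd])

/-- `C ×ₖ T' ⟶ F`. -/
def nfFamToFibre : pullback c (h ≫ s ≫ t) ⟶ pullback (pullback.snd c t) s :=
  pullback.lift (baseChangeSnd c (⟨h ≫ s, by rw [Category.assoc]⟩ : SchemeHomOver (h ≫ s ≫ t) t))
    (pullback.snd c (h ≫ s ≫ t) ≫ h)
    (by simp only [baseChangeSnd, pullback.lift_snd, Category.assoc])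

/-- `C_K ⟶ F ×_K Spec K`. -/
def nfToOne : pullback c (s ≫ t) ⟶ pullback (fibreAt c t s) (𝟙 (Spec (CommRingCat.of K))) :=
  pullback.lift (nfToFibre c t s) (pullback.snd c (s ≫ t))
    (by simp only [nfToFibre, fibreAt, pullback.lift_snd, Category.comp_id])

/-- `C ×ₖ T' ⟶ F ×_K T'`. -/
def nfToFam : pullback c (h ≫ s ≫ t) ⟶ pullback (fibreAt c t s) h :=
  pullback.lift (nfFamToFibre c t s h) (pullback.snd c (h ≫ s ≫ t))
    (by simp only [nfFamToFibre, fibreAt, pullback.lift_snd])

/-- `F ×_K Spec K ⟶ C_K`. -/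
def nfOfOne : pullback (fibreAt c t s) (𝟙 (Spec (CommRingCat.of K))) ⟶ pullback c (s ≫ t) :=
  pullback.lift
    (pullback.fst (fibreAt c t s) (𝟙 _) ≫ pullback.fst (pullback.snd c t) s ≫ pullback.fst c t)
    (pullback.fst (fibreAt c t s) (𝟙 _) ≫ fibreAt c t s)
    (by
      simp only [Category.assoc, fibreAt]
      rw [pullback.condition, pullback.condition_assoc])

/-- `F ×_K T' ⟶ C ×ₖ T'`. -/
def nfOfFam : pullback (fibreAt c t s) h ⟶ pullback c (h ≫ s ≫ t) :=
  pullback.lift
    (pullback.fst (fibreAt c t s) h ≫ pullback.fst (pullback.snd c t) s ≫ pullback.fst c t)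
    (pullback.snd (fibreAt c t s) h)
    (by
      have h1 : pullback.fst (pullback.snd c t) s ≫ pullback.snd c t = fibreAt c t s ≫ s :=
        pullback.condition
      have h2 : pullback.fst (fibreAt c t s) h ≫ fibreAt c t s =
          pullback.snd (fibreAt c t s) h ≫ h := pullback.condition
      rw [Category.assoc, Category.assoc, pullback.condition, reassoc_of% h1, reassoc_of% h2])

variable (tᵢ : SchemeHomOver (𝟙 (Spec (CommRingCat.of K))) h)

theorem nfToFibre_fst :
    nfToFibre c t s ≫ pullback.fst (pullback.snd c t) s = baseChangeSnd c (pointOver t s) := by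
  simp only [nfToFibre, pullback.lift_fst]

theorem sectionOver_comp_nfFamToFibre :
    baseChangeSnd c (sectionOver t s h tᵢ) ≫ nfFamToFibre c t s h = nfToFibre c t s := by
  apply pullback.hom_ext
  · simp only [nfFamToFibre, nfToFibre, Category.assoc, pullback.lift_fst]
    apply pullback.hom_ext
    · simp only [baseChangeSnd, Category.assoc, pullback.lift_fst, Category.comp_id]
    · simp only [baseChangeSnd, Category.assoc, pullback.lift_snd, pullback.lift_snd_assoc]
      rw [reassoc_of% tᵢ.2]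
  · simp only [nfFamToFibre, nfToFibre, Category.assoc, pullback.lift_snd]
    simp only [baseChangeSnd, pullback.lift_snd_assoc, Category.assoc]
    rw [tᵢ.2, Category.comp_id]

/-- (1): the square of fibres commutes, direction `NF → Prelude`. -/
theorem sectionOver_comp_nfToFam :
    baseChangeSnd c (sectionOver t s h tᵢ) ≫ nfToFam c t s h =
      nfToOne c t s ≫ baseChangeSnd (fibreAt c t s) tᵢ := by
  apply pullback.hom_ext
  · simp only [nfToFam, nfToOne, Category.assoc, pullback.lift_fst]
    rw [sectionOver_comp_nfFamToFibre]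
    simp only [baseChangeSnd, pullback.lift_fst, Category.comp_id]
  · simp only [nfToFam, nfToOne, Category.assoc, pullback.lift_snd]
    simp only [baseChangeSnd, pullback.lift_snd, pullback.lift_snd_assoc]

/-- (2) -/
theorem nfToOne_fst_fst :
    nfToOne c t s ≫ pullback.fst (fibreAt c t s) (𝟙 _) ≫ pullback.fst (pullback.snd c t) s =
      baseChangeSnd c (pointOver t s) := by
  simp only [nfToOne, pullback.lift_fst_assoc, nfToFibre_fst]

/-- (1'): the square of fibres commutes, direction `Prelude → NF`. -/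
theorem baseChangeSnd_comp_nfOfFam :
    baseChangeSnd (fibreAt c t s) tᵢ ≫ nfOfFam c t s h =
      nfOfOne c t s ≫ baseChangeSnd c (sectionOver t s h tᵢ) := by
  apply pullback.hom_ext
  · simp only [nfOfFam, nfOfOne, baseChangeSnd, Category.assoc, pullback.lift_fst,
      pullback.lift_fst_assoc, Category.comp_id]
  · simp only [nfOfFam, nfOfOne, baseChangeSnd, Category.assoc, pullback.lift_snd,
      pullback.lift_snd_assoc]
    rw [← Category.assoc (pullback.fst (fibreAt c t s) (𝟙 _)), pullback.condition,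
      Category.assoc, Category.id_comp]

/-- (2') -/
theorem nfOfOne_comp_pointOver :
    nfOfOne c t s ≫ baseChangeSnd c (pointOver t s) =
      pullback.fst (fibreAt c t s) (𝟙 _) ≫ pullback.fst (pullback.snd c t) s := by
  apply pullback.hom_ext
  · simp only [nfOfOne, baseChangeSnd, Category.assoc, pullback.lift_fst, Category.comp_id]
  · simp only [nfOfOne, baseChangeSnd, Category.assoc, pullback.lift_snd,
      pullback.lift_snd_assoc, fibreAt]
    rw [pullback.condition]

end Maps

section Main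

variable (L : (pullback c t).Modules)

/-- Transport of an iso of pullbacks along a commutative square `f ≫ g = f' ≫ g'`. -/
def pullbackSquareIso {X Y Y' Z : Scheme.{u}} {f : X ⟶ Y} {g : Y ⟶ Z} {f' : X ⟶ Y'}
    {g' : Y' ⟶ Z} (w : f ≫ g = f' ≫ g') (N : Z.Modules) :
    (Scheme.Modules.pullback f).obj ((Scheme.Modules.pullback g).obj N) ≅
      (Scheme.Modules.pullback f').obj ((Scheme.Modules.pullback g').obj N) :=
  (Scheme.Modules.pullbackComp _ _).app N ≪≫ (Scheme.Modules.pullbackCongr w).app N ≪≫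
    ((Scheme.Modules.pullbackComp _ _).app N).symm

/-- `pullback f (pullback g N) ≅ pullback h N` when `f ≫ g = h`. -/
def pullbackTriangleIso {X Y Z : Scheme.{u}} {f : X ⟶ Y} {g : Y ⟶ Z} {h : X ⟶ Z}
    (w : f ≫ g = h) (N : Z.Modules) :
    (Scheme.Modules.pullback f).obj ((Scheme.Modules.pullback g).obj N) ≅
      (Scheme.Modules.pullback h).obj N :=
  (Scheme.Modules.pullbackComp _ _).app N ≪≫ (Scheme.Modules.pullbackCongr w).app N

theorem isAlgEquivZero_of_nf (hL : AlgEquivZeroNF c t s L) :
    IsAlgEquivZero (fibreAt c t s)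
      ((Scheme.Modules.pullback (pullback.fst (pullback.snd c t) s)).obj L) := by
  obtain ⟨T', h, hft, hgi, N, hN, t₀, t₁, ⟨e₀⟩, ⟨e₁⟩⟩ := hL
  refine ⟨T', h, hft, hgi, (Scheme.Modules.pullback (nfOfFam c t s h)).obj N,
    hN.pullback _, t₀, t₁, ⟨?_⟩, ⟨?_⟩⟩
  · exact pullbackSquareIso (baseChangeSnd_comp_nfOfFam c t s h t₀) N ≪≫
      (Scheme.Modules.pullback (nfOfOne c t s)).mapIso e₀ ≪≫
      Scheme.Modules.pullbackUnitIso _
  · exact pullbackSquareIso (baseChangeSnd_comp_nfOfFam c t s h t₁) N ≪≫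
      (Scheme.Modules.pullback (nfOfOne c t s)).mapIso e₁ ≪≫
      pullbackSquareIso (nfOfOne_comp_pointOver c t s) L

theorem nf_of_isAlgEquivZero
    (hL : IsAlgEquivZero (fibreAt c t s)
      ((Scheme.Modules.pullback (pullback.fst (pullback.snd c t) s)).obj L)) :
    AlgEquivZeroNF c t s L := by
  obtain ⟨T', h, hft, hgi, M, hM, t₀, t₁, ⟨e₀⟩, ⟨e₁⟩⟩ := hL
  refine ⟨T', h, hft, hgi, (Scheme.Modules.pullback (nfToFam c t s h)).obj M,
    hM.pullback _, t₀, t₁, ⟨?_⟩, ⟨?_⟩⟩
  · exact pullbackSquareIso (sectionOver_comp_nfToFam c t s h t₀) M ≪≫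
      (Scheme.Modules.pullback (nfToOne c t s)).mapIso e₀ ≪≫
      Scheme.Modules.pullbackUnitIso _
  · exact pullbackSquareIso (sectionOver_comp_nfToFam c t s h t₁) M ≪≫
      (Scheme.Modules.pullback (nfToOne c t s)).mapIso e₁ ≪≫
      (Scheme.Modules.pullback (nfToOne c t s)).mapIso
        ((Scheme.Modules.pullbackComp _ _).app L) ≪≫
      pullbackTriangleIso (nfToOne_fst_fst c t s) L

/-- **Normal form of `IsAlgEquivZero` on a geometric fibre.** -/
theorem isAlgEquivZero_fibre_iff_nf :
    IsAlgEquivZero (fibreAt c t s)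
        ((Scheme.Modules.pullback (pullback.fst (pullback.snd c t) s)).obj L) ↔
      AlgEquivZeroNF c t s L :=
  ⟨nf_of_isAlgEquivZero c t s L, isAlgEquivZero_of_nf c t s L⟩

end Main

/-- **Normal form of `FibrewiseAlgEquivZero`.** -/
theorem fibrewiseAlgEquivZero_iff_nf {ε : SchemeHomOver (𝟙 (Spec (CommRingCat.of R))) c}
    (M : RigidifiedLineBundle c ε t) :
    FibrewiseAlgEquivZero M ↔
      ∀ (K : Type u) [Field K] [IsAlgClosed K] (s : Spec (CommRingCat.of K) ⟶ T),
        AlgEquivZeroNF c t s M.L :=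
  ⟨fun h K _ _ s => nf_of_isAlgEquivZero c t s M.L (h K s),
    fun h K _ _ s => isAlgEquivZero_of_nf c t s M.L (h K s)⟩

section Family

variable (L : (pullback c t).Modules)

/-- **FAM.** A family `N` of line bundles on `C ×ₖ X`, with `X` locally of finite type and
geometrically integral over `k`, whose fibre at a `K`-point `p₀` is trivial and whose fibre at a
`K`-point `p₁` is the restriction of `L` to `C_K`, witnesses `AlgEquivZeroNF`. -/
theorem nf_of_family {X : Scheme.{u}} (x : X ⟶ Spec (CommRingCat.of R))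
    [LocallyOfFiniteType x] [GeometricallyIntegral x] (N : (pullback c x).Modules)
    (hN : Scheme.Modules.IsInvertible N) (p₀ p₁ : SchemeHomOver (s ≫ t) x)
    (e₀ : Nonempty ((Scheme.Modules.pullback (baseChangeSnd c p₀)).obj N ≅
        SheafOfModules.unit (pullback c (s ≫ t)).ringCatSheaf))
    (e₁ : Nonempty ((Scheme.Modules.pullback (baseChangeSnd c p₁)).obj N ≅
        (Scheme.Modules.pullback (baseChangeSnd c (pointOver t s))).obj L)) :
    AlgEquivZeroNF c t s L := by
  obtain ⟨e₀⟩ := e₀
  obtain ⟨e₁⟩ := e₁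
  let h : pullback x (s ≫ t) ⟶ Spec (CommRingCat.of K) := pullback.snd x (s ≫ t)
  let q : SchemeHomOver (h ≫ s ≫ t) x := ⟨pullback.fst x (s ≫ t), pullback.condition⟩
  let sec : SchemeHomOver (s ≫ t) x → SchemeHomOver (𝟙 (Spec (CommRingCat.of K))) h :=
    fun p => ⟨pullback.lift p.1 (𝟙 _) (by rw [p.2, Category.id_comp]), pullback.lift_snd _ _ _⟩
  have hsec : ∀ p : SchemeHomOver (s ≫ t) x,
      baseChangeSnd c (sectionOver t s h (sec p)) ≫ baseChangeSnd c q = baseChangeSnd c p := by
    intro p
    rw [baseChangeSnd_comp]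
    congr 1
    apply Subtype.ext
    simp only [postComp, sec, q, pullback.lift_fst]
  refine ⟨pullback x (s ≫ t), h, inferInstance, inferInstance,
    (Scheme.Modules.pullback (baseChangeSnd c q)).obj N, hN.pullback _, sec p₀, sec p₁,
    ⟨?_⟩, ⟨?_⟩⟩
  · exact pullbackTriangleIso (hsec p₀) N ≪≫ e₀
  · exact pullbackTriangleIso (hsec p₁) N ≪≫ e₁

end Family

/-- **FAM.** A rigidified line bundle over a base `X` which is locally of finite type and
geometrically integral over `k`, and whose restriction to ONE section `p₀ : Spec k ⟶ X` is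
trivial, is fibrewise algebraically equivalent to zero. -/
theorem fibrewiseAlgEquivZero_of_family {ε : SchemeHomOver (𝟙 (Spec (CommRingCat.of R))) c}
    {X : Scheme.{u}} (x : X ⟶ Spec (CommRingCat.of R))
    [LocallyOfFiniteType x] [GeometricallyIntegral x] (M : RigidifiedLineBundle c ε x)
    (p₀ : SchemeHomOver (𝟙 (Spec (CommRingCat.of R))) x)
    (e₀ : Nonempty ((Scheme.Modules.pullback (baseChangeSnd c p₀)).obj M.L ≅
        SheafOfModules.unit (pullback c (𝟙 (Spec (CommRingCat.of R)))).ringCatSheaf)) :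
    FibrewiseAlgEquivZero M := by
  rw [fibrewiseAlgEquivZero_iff_nf]
  intro K _ _ s
  obtain ⟨e₀⟩ := e₀
  let u : SchemeHomOver (s ≫ x) (𝟙 (Spec (CommRingCat.of R))) := ⟨s ≫ x, Category.comp_id _⟩
  refine nf_of_family c x s M.L x M.L M.isInvertible (postComp p₀ u) (pointOver x s) ⟨?_⟩
    ⟨Iso.refl _⟩
  exact (Scheme.Modules.pullbackCongr (baseChangeSnd_comp c p₀ u).symm).app M.L ≪≫
    ((Scheme.Modules.pullbackComp _ _).app M.L).symm ≪≫
    (Scheme.Modules.pullback (baseChangeSnd c u)).mapIso e₀ ≪≫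
    Scheme.Modules.pullbackUnitIso _

end

end Fermat.Agent.S25.H385
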