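import Fermat.Statements.S25
import Fermat.Agent.S25.H447.TensorDomain

/-!
# S25: geometric integrality over an algebraically closed field, and the powers `C^n`

Inputs for the blocks `Abel` (`X = C^g` must be proper and geometrically integral over `k`) and
"degree 0 ⇒ algebraically equivalent to 0" (`T' = (C_K)^g`).

* `geometricallyIntegral_specMap_of_isAlgClosed` : `Spec K ⟶ Spec k` is geometrically integral
  (`k` algebraically closed, `K` any `k`-algebra which is a domain);
* `isIntegral_pullback_specMap_of_isAlgClosed`, `geometricallyIntegral_of_isAlgClosed` (**P1**):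
  an integral locally noetherian `k`-scheme is geometrically integral;
* `isIntegral_pullback_of_isAlgClosed` (**P2**): products of integral locally noetherian
  `k`-schemes are integral;
* `PowData c n` : a model of `C^n` over `Spec k` with projections and universal property
  (`proj`, `lift`, `hom_ext`); `powData c n` the standard model (`C^(n+1) = C ×ₖ C^n`);
* `powData_isProper`, `powData_locallyOfFiniteType`, `powData_smooth`, `powData_isIntegral`,
  `powData_geometricallyIntegral`.
-/

set_option autoImplicit false

universe u

open CategoryTheory CategoryTheory.Limits AlgebraicGeometry Opposite TensorProduct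

namespace Fermat.Agent.S25.H385

/-- Over an algebraically closed field `k`, `Spec K ⟶ Spec k` is geometrically integral for every
`k`-algebra `K` which is a domain. -/
theorem geometricallyIntegral_specMap_of_isAlgClosed (k K : Type u) [Field k] [IsAlgClosed k]
    [CommRing K] [IsDomain K] [Algebra k K] :
    GeometricallyIntegral (Spec.map (CommRingCat.ofHom (algebraMap k K))) := by
  rw [GeometricallyIntegral.eq_geometrically, geometrically_iff_of_commRing]
  intro L _ _ Y fst snd h
  have : IsDomain (K ⊗[k] L) := H447.isDomain_tensorProduct_of_isAlgClosed k K L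
  have e := h.isoPullback ≪≫ pullbackSpecIso k K L
  exact AlgebraicGeometry.IsIntegral.of_isIso e.inv

/-- **P1.** An integral, locally noetherian scheme over an algebraically closed field `k` stays
integral after base change to any `k`-algebra `K` which is a domain. -/
theorem isIntegral_pullback_specMap_of_isAlgClosed (k K : Type u) [Field k] [IsAlgClosed k]
    [CommRing K] [IsDomain K] [Algebra k K] {X : Scheme.{u}} (f : X ⟶ Spec (CommRingCat.of k))
    [IsIntegral X] [IsLocallyNoetherian X] :
    IsIntegral (pullback f (Spec.map (CommRingCat.ofHom (algebraMap k K)))) := by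
  have := geometricallyIntegral_specMap_of_isAlgClosed k K
  infer_instance

/-- **P1.** An integral, locally noetherian scheme over an algebraically closed field is
geometrically integral. -/
theorem geometricallyIntegral_of_isAlgClosed (k : Type u) [Field k] [IsAlgClosed k]
    {X : Scheme.{u}} (f : X ⟶ Spec (CommRingCat.of k)) [IsIntegral X] [IsLocallyNoetherian X] :
    GeometricallyIntegral f := by
  rw [GeometricallyIntegral.eq_geometrically, geometrically_iff_of_commRing]
  intro L _ _ Y fst snd h
  have := isIntegral_pullback_specMap_of_isAlgClosed k L f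
  exact AlgebraicGeometry.IsIntegral.of_isIso h.isoPullback.inv

/-- **P2'.** The product of two integral, locally noetherian schemes over an algebraically closed
field is integral. -/
theorem isIntegral_pullback_of_isAlgClosed (k : Type u) [Field k] [IsAlgClosed k]
    {X Y : Scheme.{u}} (f : X ⟶ Spec (CommRingCat.of k)) (g : Y ⟶ Spec (CommRingCat.of k))
    [IsIntegral X] [IsLocallyNoetherian X] [IsIntegral Y] [IsLocallyNoetherian Y] :
    IsIntegral (pullback f g) := by
  have := geometricallyIntegral_of_isAlgClosed k f
  infer_instance


section Powers

variable {k : Type u} [CommRing k] {C : Scheme.{u}} (c : C ⟶ Spec (CommRingCat.of k))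

/-- A model of the `n`-fold fibre power `C^n` of `c : C ⟶ Spec k` over `Spec k`, with its
projections and universal property. -/
structure PowData (n : ℕ) where
  /-- the scheme `C^n` -/
  X : Scheme.{u}
  /-- the structure morphism -/
  hom : X ⟶ Spec (CommRingCat.of k)
  /-- the projections -/
  proj : Fin n → (X ⟶ C)
  proj_comp : ∀ i, proj i ≫ c = hom
  /-- the universal property: existence -/
  lift : ∀ {T : Scheme.{u}} (t : T ⟶ Spec (CommRingCat.of k)) (x : Fin n → (T ⟶ C)),
    (∀ i, x i ≫ c = t) → (T ⟶ X)
  lift_hom : ∀ {T : Scheme.{u}} (t : T ⟶ Spec (CommRingCat.of k)) (x : Fin n → (T ⟶ C))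
    (hx : ∀ i, x i ≫ c = t), lift t x hx ≫ hom = t
  lift_proj : ∀ {T : Scheme.{u}} (t : T ⟶ Spec (CommRingCat.of k)) (x : Fin n → (T ⟶ C))
    (hx : ∀ i, x i ≫ c = t) (i : Fin n), lift t x hx ≫ proj i = x i
  /-- the universal property: uniqueness -/
  hom_ext : ∀ {T : Scheme.{u}} (a b : T ⟶ X), a ≫ hom = b ≫ hom →
    (∀ i, a ≫ proj i = b ≫ proj i) → a = b

namespace PowData

/-- `C^0 = Spec k`. -/
noncomputable def zero : PowData c 0 where
  X := Spec (CommRingCat.of k)
  hom := 𝟙 _
  proj i := i.elim0
  proj_comp i := i.elim0
  lift t _ _ := t
  lift_hom t _ _ := Category.comp_id _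
  lift_proj _ _ _ i := i.elim0
  hom_ext a b h _ := by simpa using h

variable {c}

/-- `C^(n+1) = C ×ₖ C^n`. -/
noncomputable def succ {n : ℕ} (D : PowData c n) : PowData c (n + 1) where
  X := pullback c D.hom
  hom := pullback.snd c D.hom ≫ D.hom
  proj := Fin.cases (pullback.fst c D.hom) (fun j => pullback.snd c D.hom ≫ D.proj j)
  proj_comp i := by
    refine Fin.cases ?_ (fun j => ?_) i
    · simp only [Fin.cases_zero]; exact pullback.condition
    · simp only [Fin.cases_succ, Category.assoc, D.proj_comp]
  lift t x hx := pullback.lift (x 0) (D.lift t (fun j => x j.succ) (fun j => hx j.succ))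
    (by rw [hx 0, D.lift_hom])
  lift_hom t x hx := by
    rw [← Category.assoc, pullback.lift_snd, D.lift_hom]
  lift_proj t x hx i := by
    refine Fin.cases ?_ (fun j => ?_) i
    · simp only [Fin.cases_zero, pullback.lift_fst]
    · simp only [Fin.cases_succ]
      rw [← Category.assoc, pullback.lift_snd, D.lift_proj]
  hom_ext a b h hp := by
    apply pullback.hom_ext
    · simpa using hp 0
    · apply D.hom_ext
      · simpa only [Category.assoc] using h
      · intro j
        have := hp j.succ
        simpa only [Fin.cases_succ, Category.assoc] using this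

@[simp] theorem succ_X {n : ℕ} (D : PowData c n) : D.succ.X = pullback c D.hom := rfl
@[simp] theorem succ_hom {n : ℕ} (D : PowData c n) :
    D.succ.hom = pullback.snd c D.hom ≫ D.hom := rfl
theorem succ_hom' {n : ℕ} (D : PowData c n) :
    D.succ.hom = pullback.fst c D.hom ≫ c := by
  rw [succ_hom, pullback.condition]
@[simp] theorem succ_proj_zero {n : ℕ} (D : PowData c n) :
    D.succ.proj 0 = pullback.fst c D.hom := rfl
@[simp] theorem succ_proj_succ {n : ℕ} (D : PowData c n) (j : Fin n) :
    D.succ.proj j.succ = pullback.snd c D.hom ≫ D.proj j := by
  simp [succ]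

end PowData

/-- The standard model of `C^n`: `C^0 = Spec k`, `C^(n+1) = C ×ₖ C^n`. -/
noncomputable def powData : (n : ℕ) → PowData c n
  | 0 => PowData.zero c
  | n + 1 => (powData n).succ

@[simp] theorem powData_zero : powData c 0 = PowData.zero c := rfl
@[simp] theorem powData_succ (n : ℕ) : powData c (n + 1) = (powData c n).succ := rfl

end Powers

section PowersProps

variable {k : Type u} [CommRing k] {C : Scheme.{u}} (c : C ⟶ Spec (CommRingCat.of k))

theorem powData_isProper [IsProper c] (n : ℕ) : IsProper (powData c n).hom := by
  induction n with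
  | zero => rw [powData_zero]; exact inferInstanceAs (IsProper (𝟙 _))
  | succ n ih =>
    rw [powData_succ]
    exact inferInstanceAs (IsProper (pullback.snd c (powData c n).hom ≫ (powData c n).hom))

theorem powData_locallyOfFiniteType [LocallyOfFiniteType c] (n : ℕ) :
    LocallyOfFiniteType (powData c n).hom := by
  induction n with
  | zero => rw [powData_zero]; exact inferInstanceAs (LocallyOfFiniteType (𝟙 _))
  | succ n ih =>
    rw [powData_succ]
    exact inferInstanceAs (LocallyOfFiniteType (pullback.snd c (powData c n).hom ≫ (powData c n).hom))

theorem powData_smooth [Smooth c] (n : ℕ) : Smooth (powData c n).hom := by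
  induction n with
  | zero => rw [powData_zero]; exact inferInstanceAs (Smooth (𝟙 _))
  | succ n ih =>
    rw [powData_succ]
    exact inferInstanceAs (Smooth (pullback.snd c (powData c n).hom ≫ (powData c n).hom))

end PowersProps

section PowersField

variable (k : Type u) [Field k] [IsAlgClosed k] {C : Scheme.{u}}
  (c : C ⟶ Spec (CommRingCat.of k))

omit [IsAlgClosed k] in
theorem powData_isLocallyNoetherian [LocallyOfFiniteType c] (n : ℕ) :
    IsLocallyNoetherian (powData c n).X :=
  have := powData_locallyOfFiniteType c n
  LocallyOfFiniteType.isLocallyNoetherian (powData c n).hom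

/-- `C^n` is integral if `C` is integral and locally of finite type over the algebraically closed
field `k`. -/
theorem powData_isIntegral [LocallyOfFiniteType c] [IsIntegral C] (n : ℕ) :
    IsIntegral (powData c n).X := by
  induction n with
  | zero => rw [powData_zero]; exact inferInstanceAs (IsIntegral (Spec (CommRingCat.of k)))
  | succ n ih =>
    rw [powData_succ, PowData.succ_X]
    have := powData_isLocallyNoetherian k c n
    have : IsLocallyNoetherian C := LocallyOfFiniteType.isLocallyNoetherian c
    exact isIntegral_pullback_of_isAlgClosed k c (powData c n).hom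

/-- `C^n ⟶ Spec k` is geometrically integral if `C` is integral and locally of finite type over
the algebraically closed field `k`. -/
theorem powData_geometricallyIntegral [LocallyOfFiniteType c] [IsIntegral C] (n : ℕ) :
    GeometricallyIntegral (powData c n).hom :=
  have := powData_isLocallyNoetherian k c n
  have := powData_isIntegral k c n
  geometricallyIntegral_of_isAlgClosed k (powData c n).hom

/-- The curve of S25 is geometrically integral. -/
theorem geometricallyIntegral_of_locallyOfFiniteType [LocallyOfFiniteType c] [IsIntegral C] :
    GeometricallyIntegral c :=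
  have : IsLocallyNoetherian C := LocallyOfFiniteType.isLocallyNoetherian c
  geometricallyIntegral_of_isAlgClosed k c

/-- Every geometric fibre of `C ×ₖ T ⟶ T` is integral (this is the scheme on which the Prelude's
`FibrewiseAlgEquivZero` tests a line bundle). -/
theorem isIntegral_fibre [LocallyOfFiniteType c] [IsIntegral C] {T : Scheme.{u}}
    (t : T ⟶ Spec (CommRingCat.of k)) (K : Type u) [Field K]
    (s : Spec (CommRingCat.of K) ⟶ T) : IsIntegral (pullback (pullback.snd c t) s) := by
  have := geometricallyIntegral_of_locallyOfFiniteType k c
  have h : GeometricallyIntegral (pullback.snd c t) := inferInstance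
  exact h.geometrically_isIntegral s _ _ (IsPullback.of_hasPullback _ _)

omit [IsAlgClosed k] in
/-- The geometric fibres of `C ×ₖ T ⟶ T` are locally of finite type over the field. -/
theorem locallyOfFiniteType_fibreAt [LocallyOfFiniteType c] {T : Scheme.{u}}
    (t : T ⟶ Spec (CommRingCat.of k)) (K : Type u) [Field K]
    (s : Spec (CommRingCat.of K) ⟶ T) :
    LocallyOfFiniteType (AlgebraicGeometry.RelPicard.fibreAt c t s) := by
  unfold AlgebraicGeometry.RelPicard.fibreAt
  infer_instance

omit [IsAlgClosed k] in
/-- The geometric fibres of `C ×ₖ T ⟶ T` are proper over the field. -/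
theorem isProper_fibreAt [IsProper c] {T : Scheme.{u}}
    (t : T ⟶ Spec (CommRingCat.of k)) (K : Type u) [Field K]
    (s : Spec (CommRingCat.of K) ⟶ T) :
    IsProper (AlgebraicGeometry.RelPicard.fibreAt c t s) := by
  unfold AlgebraicGeometry.RelPicard.fibreAt
  infer_instance

end PowersField

end Fermat.Agent.S25.H385
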